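/-
S44, cell [W-J] (helper25; prefix `s44w_`): THE ATKIN–LEHNER INVOLUTION `W_p` ON `J₀(M p)`.

`s44w_WJ M p hp hpM : J₀(M p) →+ J₀(M p)` := the push-forward of divisor classes along the
Atkin–Lehner automorphism `W̄ = ssm_al_Wbar M p hp hpM` of `F̄_{M p}` (`W̄ ∘ α = β`, `W̄ ∘ β = α`,
`W̄ ∘ W̄ = id`).

* `s44w_WJ_smul`    : `W_p` is `G_ℚ`-equivariant;
* `s44w_rep_push`   : `f` represents `z` ⟹ `N_φ f` represents `φ_* z` (any finite `φ`);
* `s44w_rep_WJ`     : `f` represents `z` ⟹ `W̄ f` represents `W_p z`;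
* `s44w_rep_inj`    : a function represents at most one class;
* `s44w_WJ_WJ`      : `W_p (W_p z) = z` for `p z = 0`;
* `s44w_as_WJ`, `s44w_bs_WJ` : `α_* ∘ W_p = β_*`, `β_* ∘ W_p = α_*` on `J₀(M p)[p]`.
-/
import Fermat.Agent.S44.Frame2
import Fermat.Agent.S44.FrameAPI
import Fermat.Agent.S44.DQbar.NormPow
import Fermat.Agent.S44.PsiEig.WGal
import Fermat.Agent.S35.PEquiv.Div

set_option autoImplicit false
set_option linter.unusedSectionVars false
set_option linter.style.haveILetI false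
set_option synthInstance.maxHeartbeats 400000
set_option maxHeartbeats 1000000

noncomputable section

namespace Fermat.Agent.S44

open ModularCurve AlgebraicCurve Fermat.Agent.S24 Fermat.Agent.JT3 Fermat.Agent.S35
  Fermat.Agent.SS

/-! ### representing functions and push-forwards -/

section Rep

variable {N N' : ℕ} [NeZero N] [NeZero N'] (p : ℕ)

/-- a function represents at most one class -/
theorem s44w_rep_inj {z z' : JZero N} {f : Fbar N} (hp : p ≠ 0) (h : s44f_Rep N p z f)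
    (h' : s44f_Rep N p z' f) : z = z' := by
  obtain ⟨-, D, rfl, hD⟩ := h
  obtain ⟨-, D', rfl, hD'⟩ := h'
  congr 1
  apply Subtype.ext
  refine s35pe_divisor_eq_of_nsmul_eq hp (Finsupp.ext fun v => ?_)
  rw [Finsupp.smul_apply, Finsupp.smul_apply, nsmul_eq_mul, nsmul_eq_mul, hD v, hD' v]

/-- **`f` represents `z` ⟹ `N_φ f` represents `φ_* z`.** -/
theorem s44w_rep_push (φ : Fbar N →ₐ[Kbar] Fbar N') (hφ : φ.toRingHom.IsIntegral)
    (hfin : FiniteAlong Kbar φ) (hN : NormFormulaAlong Kbar φ hfin) {z : JZero N'} {f : Fbar N'}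
    (h : s44f_Rep N' p z f) :
    s44f_Rep N p (s35p_pushPic0 φ hφ hfin hN z) (s35pe_normAlong φ f) := by
  obtain ⟨hf0, D, rfl, hD⟩ := h
  refine ⟨s35pe_normAlong_ne_zero φ hfin hf0, s35p_pushDegZero φ hφ D, rfl, fun v => ?_⟩
  have hD' : ∀ w : Place Kbar (Fbar N'), (p • (D : Divisor Kbar (Fbar N'))) w = w.ord f := by
    intro w
    rw [Finsupp.smul_apply, nsmul_eq_mul]
    exact hD w
  have h1 := s35pe_pushforwardAlong_ord φ hφ hfin hN hf0 hD' v
  rw [map_nsmul, Finsupp.smul_apply, nsmul_eq_mul] at h1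
  exact h1

end Rep

/-! ### algebra homomorphisms that are onto -/

section Surj

variable {K F F' : Type*} [Field K] [Field F] [Field F'] [Algebra K F] [Algebra K F']

/-- a surjective homomorphism of fields is finite -/
theorem s44w_finiteAlong_of_surj (φ : F →ₐ[K] F') (hφ : Function.Surjective φ) :
    FiniteAlong K φ := by
  letI := algebraAlong φ
  refine ⟨⟨{1}, ?_⟩⟩
  rw [eq_top_iff]
  intro y _
  rw [Finset.coe_singleton, Submodule.mem_span_singleton]
  obtain ⟨x, rfl⟩ := hφ y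
  refine ⟨x, ?_⟩
  rw [Algebra.smul_def, mul_one]
  rfl

/-- the norm along a surjective homomorphism of fields is its inverse -/
theorem s44w_normAlong_of_surj (φ : F →ₐ[K] F') (hφ : Function.Surjective φ) (f : F) :
    s35pe_normAlong φ (φ f) = f := by
  letI := algebraAlong φ
  have h1 : Module.finrank F F' = 1 := by
    refine finrank_eq_one (1 : F') one_ne_zero fun w => ?_
    obtain ⟨x, rfl⟩ := hφ w
    refine ⟨x, ?_⟩
    rw [Algebra.smul_def, mul_one]
    rfl
  show Algebra.norm F (algebraMap F F' f) = f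
  rw [Algebra.norm_algebraMap, h1, pow_one]

end Surj

/-! ### the Atkin–Lehner involution on `J₀(M p)` -/

section WJ

variable (M p : ℕ) [NeZero M] [NeZero p] (hp : p.Prime) (hpM : ¬ p ∣ M)

/-- `W̄` is finite (of degree one). -/
theorem s44w_finiteAlong : FiniteAlong Kbar (ssm_al_Wbar M p hp hpM) :=
  s44w_finiteAlong_of_surj _ fun y => ⟨_, s44dqn_Wbar_Wbar M p hp hpM y⟩

theorem s44w_integral : (ssm_al_Wbar M p hp hpM).toRingHom.IsIntegral :=
  ptw_isIntegral_of_finiteAlong _ (s44w_finiteAlong M p hp hpM)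

theorem s44w_normFormulaAlong :
    NormFormulaAlong Kbar (ssm_al_Wbar M p hp hpM) (s44w_finiteAlong M p hp hpM) :=
  ptw_normFormulaAlong _ (s44w_finiteAlong M p hp hpM)
    (ptw_separableAlong_of_charZero _ (s44w_finiteAlong M p hp hpM)) (br_jBar (M * p))
    (br_jBar (M * p))

/-- the norm along the automorphism `W̄` is `W̄⁻¹ = W̄`. -/
theorem s44w_normAlong_Wbar (f : Fbar (M * p)) :
    s35pe_normAlong (ssm_al_Wbar M p hp hpM) f = ssm_al_Wbar M p hp hpM f := by
  have h := s44w_normAlong_of_surj (ssm_al_Wbar M p hp hpM)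
    (fun y => ⟨_, s44dqn_Wbar_Wbar M p hp hpM y⟩) (ssm_al_Wbar M p hp hpM f)
  rw [s44dqn_Wbar_Wbar] at h
  exact h

/-- **the Atkin–Lehner involution on `J₀(M p)`.** -/
def s44w_WJ : JZero (M * p) →+ JZero (M * p) :=
  s35p_pushPic0 (ssm_al_Wbar M p hp hpM) (s44w_integral M p hp hpM) (s44w_finiteAlong M p hp hpM)
    (s44w_normFormulaAlong M p hp hpM)

/-- `W_p` is Galois equivariant. -/
theorem s44w_WJ_smul (σ : AlgebraicClosure ℚ ≃ₐ[ℚ] AlgebraicClosure ℚ) (z : JZero (M * p)) :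
    s44w_WJ M p hp hpM (σ • z) = σ • s44w_WJ M p hp hpM z :=
  s35p_pushPic0_smul _ _ _ _ (fun x => (s44pe_Wbar_galois M p hp hpM σ x).symm)
    (s35p_deg_ne_zero (M * p)) z

/-- **`f` represents `z` ⟹ `W̄ f` represents `W_p z`.** -/
theorem s44w_rep_WJ {z : JZero (M * p)} {f : Fbar (M * p)} (h : s44f_Rep (M * p) p z f) :
    s44f_Rep (M * p) p (s44w_WJ M p hp hpM z) (ssm_al_Wbar M p hp hpM f) := by
  have h1 := s44w_rep_push p (ssm_al_Wbar M p hp hpM) (s44w_integral M p hp hpM)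
    (s44w_finiteAlong M p hp hpM) (s44w_normFormulaAlong M p hp hpM) h
  rw [s44w_normAlong_Wbar] at h1
  exact h1

/-- **`W_p ∘ W_p = id` on `J₀(M p)[p]`.** -/
theorem s44w_WJ_WJ (z : JZero (M * p)) (hz : p • z = 0) :
    s44w_WJ M p hp hpM (s44w_WJ M p hp hpM z) = z := by
  obtain ⟨f, hf⟩ := s44f_rep_exists (M * p) z hz
  have h1 := s44w_rep_WJ M p hp hpM (s44w_rep_WJ M p hp hpM hf)
  rw [s44dqn_Wbar_Wbar] at h1
  exact s44w_rep_inj p hp.ne_zero h1 hf

/-- `W_p` preserves `J₀(M p)[p]`. -/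
theorem s44w_WJ_tors (z : JZero (M * p)) (hz : p • z = 0) : p • s44w_WJ M p hp hpM z = 0 := by
  rw [← map_nsmul, hz, map_zero]

/-- **`α_* ∘ W_p = β_*` on `J₀(M p)[p]`.** -/
theorem s44w_as_WJ (z : JZero (M * p)) (hz : p • z = 0) :
    s35p_P1J M p (s44w_WJ M p hp hpM z) = s35p_P2J M p z := by
  obtain ⟨f, hf⟩ := s44f_rep_exists (M * p) z hz
  have h1 := s44w_rep_push p (heckeAlphaBar Kbar M p) (hib_alphaIntegral M p)
    (hib_finiteAlong_alpha M p) (hib_normFormulaAlong_alpha M p) (s44w_rep_WJ M p hp hpM hf)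
  have h2 := s44w_rep_push p (heckeBetaBar Kbar M p) (hib_betaIntegral M p)
    (hib_finiteAlong_beta M p) (hib_normFormulaAlong_beta M p) hf
  rw [s44dqn_norm_Wbar] at h1
  exact s44w_rep_inj p hp.ne_zero h1 h2

/-- **`β_* ∘ W_p = α_*` on `J₀(M p)[p]`.** -/
theorem s44w_bs_WJ (z : JZero (M * p)) (hz : p • z = 0) :
    s35p_P2J M p (s44w_WJ M p hp hpM z) = s35p_P1J M p z := by
  have h := s44w_as_WJ M p hp hpM (s44w_WJ M p hp hpM z) (s44w_WJ_tors M p hp hpM z hz)
  rw [s44w_WJ_WJ M p hp hpM z hz] at h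
  exact h.symm

end WJ

end Fermat.Agent.S44
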