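/-
S44, cell [W-J] (helper25; prefix `s44w_`): THE ATKIN–LEHNER INVOLUTION `W_p` ON `J₀(M p)` COMMUTES
WITH THE HECKE OPERATORS `T_ℓ` (`ℓ ∤ M p`) on torsion classes.

* `s44w_exists_W'`   : the Atkin–Lehner endomorphism `W'` of `F̄_{M p ℓ}` (w.r.t. `p`) with
                       `W' ∘ α_ℓ = α_ℓ ∘ W̄`, `W' ∘ β_ℓ = β_ℓ ∘ W̄`, and `F̄_{M p ℓ}` generated by
                       `α_ℓ (F̄_{M p})` and the image of `W'`;
* `s44w_norm_comm`   : `W̄ (N_{α_ℓ} (β_ℓ g)) = N_{α_ℓ} (β_ℓ (W̄ g))`;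
* `s44w_div_comm`    : the divisor identity (D) for `γ = W̄` (Kummer trick `s35pe_div_comm`);
* `s44w_WJ_hecke`    : `W_p (T_ℓ z) = T_ℓ (W_p z)` for torsion `z`.
-/
import Fermat.Agent.S44.WJ.Basic
import Fermat.Agent.S35.PEquiv.DivInst
import Fermat.Agent.S35.PMaps.Equiv

set_option autoImplicit false
set_option linter.unusedSectionVars false
set_option linter.style.haveILetI false
set_option synthInstance.maxHeartbeats 400000
set_option maxHeartbeats 1000000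

noncomputable section

namespace Fermat.Agent.S44

open ModularCurve AlgebraicCurve Fermat.Agent.S24 Fermat.Agent.JT3 Fermat.Agent.S35
  Fermat.Agent.SS

section Hecke

variable (M p ℓ : ℕ) [NeZero M] [NeZero p] [NeZero ℓ] (hp : p.Prime) (hpM : ¬ p ∣ M)

/-- **the Atkin–Lehner endomorphism one level up.** -/
theorem s44w_exists_W' (hpMℓ : ¬ p ∣ M * ℓ) :
    ∃ W' : Fbar (M * p * ℓ) →ₐ[Kbar] Fbar (M * p * ℓ),
      (∀ y : Fbar (M * p), W' (heckeAlphaBar Kbar (M * p) ℓ y) =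
        heckeAlphaBar Kbar (M * p) ℓ (ssm_al_Wbar M p hp hpM y)) ∧
      (∀ y : Fbar (M * p), W' (heckeBetaBar Kbar (M * p) ℓ y) =
        heckeBetaBar Kbar (M * p) ℓ (ssm_al_Wbar M p hp hpM y)) ∧
      (∀ S : Subfield (Fbar (M * p * ℓ)), (∀ x, heckeAlphaBar Kbar (M * p) ℓ x ∈ S) →
        (∀ y, W' y ∈ S) → S = ⊤) := by
  have hcongr : s35pe_FL (M * ℓ * p) = s35pe_FL (M * p * ℓ) :=
    s35pe_FL_congr (Nat.mul_right_comm M ℓ p)
  have h23 : s35pe_FL (M * ℓ) ≤ s35pe_FL (M * p * ℓ) :=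
    s35pe_FL_mono ⟨p, (Nat.mul_right_comm M ℓ p).symm⟩
  have hq23 : ∀ x ∈ s35pe_FL (M * ℓ), qExpandAlgHomC Kbar p x ∈ s35pe_FL (M * p * ℓ) :=
    fun _ hx => s35pe_FL_expand (dvd_of_eq (Nat.mul_right_comm M ℓ p)) hx
  obtain ⟨W', hW1, hW2⟩ := s35pe_exists_W p hp (M * ℓ) hpMℓ (s35pe_FL (M * p * ℓ)) hcongr.symm
    h23 hq23
  -- the four generator computations
  have ej : (⟨jqModC Kbar, s35pe_j_mem (M * p)⟩ : s35pe_FL (M * p)) =
      heckeAlphaBar Kbar M p ⟨jqModC Kbar, s35pe_j_mem M⟩ := Subtype.ext rfl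
  have ejM : (⟨qExpand Kbar (M * p) (jqModC Kbar), s35pe_jd_mem (M * p) dvd_rfl⟩ :
      s35pe_FL (M * p)) =
      heckeBetaBar Kbar M p ⟨qExpand Kbar M (jqModC Kbar), s35pe_jd_mem M dvd_rfl⟩ :=
    Subtype.ext (by
      rw [coe_heckeBetaBar]
      show qExpand Kbar (M * p) (jqModC Kbar) = qExpand Kbar p (qExpand Kbar M (jqModC Kbar))
      rw [qExpand_qExpand]
      exact qExpand_congr (mul_comm M p) _)
  refine ⟨W', ?_, ?_, ?_⟩
  · -- `W' ∘ α_ℓ = α_ℓ ∘ W̄`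
    have key : W'.comp (heckeAlphaBar Kbar (M * p) ℓ) =
        (heckeAlphaBar Kbar (M * p) ℓ).comp (ssm_al_Wbar M p hp hpM) := by
      refine IntermediateField.algHom_ext_of_eq_adjoin Kbar (S := s35pe_FL (M * p))
        (s := {jqModC Kbar, qExpand Kbar (M * p) (jqModC Kbar)}) (s35pe_FL_adjoin_pair (M * p)) ?_
      intro x hx
      rw [AlgHom.comp_apply, AlgHom.comp_apply]
      rcases hx with rfl | rfl
      · rw [show (⟨jqModC Kbar, _⟩ : s35pe_FL (M * p)) =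
          heckeAlphaBar Kbar M p ⟨jqModC Kbar, s35pe_j_mem M⟩ from ej, ssm_al_Wbar_alpha]
        have e1 : heckeAlphaBar Kbar (M * p) ℓ
            (heckeAlphaBar Kbar M p ⟨jqModC Kbar, s35pe_j_mem M⟩) =
            (⟨jqModC Kbar, h23 (s35pe_j_mem (M * ℓ))⟩ : s35pe_FL (M * p * ℓ)) := Subtype.ext rfl
        rw [e1, hW1 _ (s35pe_j_mem (M * ℓ))]
        exact Subtype.ext rfl
      · rw [show (⟨qExpand Kbar (M * p) (jqModC Kbar), _⟩ : s35pe_FL (M * p)) =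
          heckeBetaBar Kbar M p ⟨qExpand Kbar M (jqModC Kbar), s35pe_jd_mem M dvd_rfl⟩ from ejM,
          ssm_al_Wbar_beta]
        have hxM : qExpand Kbar M (jqModC Kbar) ∈ s35pe_FL (M * ℓ) :=
          s35pe_jd_mem (M * ℓ) (Dvd.intro ℓ rfl)
        have e1 : heckeAlphaBar Kbar (M * p) ℓ
            (heckeBetaBar Kbar M p ⟨qExpand Kbar M (jqModC Kbar), s35pe_jd_mem M dvd_rfl⟩) =
            (⟨qExpandAlgHomC Kbar p (qExpand Kbar M (jqModC Kbar)), hq23 _ hxM⟩ :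
              s35pe_FL (M * p * ℓ)) := Subtype.ext rfl
        rw [e1, hW2 _ hxM]
        exact Subtype.ext rfl
    exact fun y => DFunLike.congr_fun key y
  · -- `W' ∘ β_ℓ = β_ℓ ∘ W̄`
    have key : W'.comp (heckeBetaBar Kbar (M * p) ℓ) =
        (heckeBetaBar Kbar (M * p) ℓ).comp (ssm_al_Wbar M p hp hpM) := by
      refine IntermediateField.algHom_ext_of_eq_adjoin Kbar (S := s35pe_FL (M * p))
        (s := {jqModC Kbar, qExpand Kbar (M * p) (jqModC Kbar)}) (s35pe_FL_adjoin_pair (M * p)) ?_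
      intro x hx
      rw [AlgHom.comp_apply, AlgHom.comp_apply]
      rcases hx with rfl | rfl
      · rw [show (⟨jqModC Kbar, _⟩ : s35pe_FL (M * p)) =
          heckeAlphaBar Kbar M p ⟨jqModC Kbar, s35pe_j_mem M⟩ from ej, ssm_al_Wbar_alpha]
        have hxl : qExpand Kbar ℓ (jqModC Kbar) ∈ s35pe_FL (M * ℓ) :=
          s35pe_jd_mem (M * ℓ) (Dvd.intro_left M rfl)
        have e1 : heckeBetaBar Kbar (M * p) ℓ
            (heckeAlphaBar Kbar M p ⟨jqModC Kbar, s35pe_j_mem M⟩) =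
            (⟨qExpand Kbar ℓ (jqModC Kbar), h23 hxl⟩ : s35pe_FL (M * p * ℓ)) := Subtype.ext rfl
        rw [e1, hW1 _ hxl]
        apply Subtype.ext
        rw [coe_heckeBetaBar, coe_heckeBetaBar]
        exact s35pe_qExpand_comm p ℓ _
      · rw [show (⟨qExpand Kbar (M * p) (jqModC Kbar), _⟩ : s35pe_FL (M * p)) =
          heckeBetaBar Kbar M p ⟨qExpand Kbar M (jqModC Kbar), s35pe_jd_mem M dvd_rfl⟩ from ejM,
          ssm_al_Wbar_beta]
        have hxMl : qExpand Kbar (M * ℓ) (jqModC Kbar) ∈ s35pe_FL (M * ℓ) :=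
          s35pe_jd_mem (M * ℓ) dvd_rfl
        have e1 : heckeBetaBar Kbar (M * p) ℓ
            (heckeBetaBar Kbar M p ⟨qExpand Kbar M (jqModC Kbar), s35pe_jd_mem M dvd_rfl⟩) =
            (⟨qExpandAlgHomC Kbar p (qExpand Kbar (M * ℓ) (jqModC Kbar)), hq23 _ hxMl⟩ :
              s35pe_FL (M * p * ℓ)) := by
          apply Subtype.ext
          rw [coe_heckeBetaBar, coe_heckeBetaBar]
          show qExpand Kbar ℓ (qExpand Kbar p (qExpand Kbar M (jqModC Kbar))) =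
            qExpand Kbar p (qExpand Kbar (M * ℓ) (jqModC Kbar))
          rw [qExpand_qExpand, qExpand_qExpand, qExpand_qExpand]
          exact qExpand_congr (by ring) _
        rw [e1, hW2 _ hxMl]
        apply Subtype.ext
        rw [coe_heckeBetaBar, coe_heckeAlphaBar]
        show qExpand Kbar (M * ℓ) (jqModC Kbar) = qExpand Kbar ℓ (qExpand Kbar M (jqModC Kbar))
        rw [qExpand_qExpand]
        exact qExpand_congr (mul_comm M ℓ) _
    exact fun y => DFunLike.congr_fun key y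
  · -- generation
    intro S hα hW
    refine s35pe_subfield_eq_top (s35pe_FL_adjoin_pair (M * p * ℓ)) S (fun c => ?_) ?_
    · have := hα (algebraMap Kbar (Fbar (M * p)) c)
      rwa [AlgHom.commutes] at this
    · intro x hx h
      rcases hx with rfl | rfl
      · have := hα ⟨jqModC Kbar, s35pe_j_mem (M * p)⟩
        exact this
      · have hxMl : qExpand Kbar (M * ℓ) (jqModC Kbar) ∈ s35pe_FL (M * ℓ) :=
          s35pe_jd_mem (M * ℓ) dvd_rfl
        have h1 := hW ⟨qExpand Kbar (M * ℓ) (jqModC Kbar), h23 hxMl⟩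
        rw [hW1 _ hxMl] at h1
        have e : (⟨qExpandAlgHomC Kbar p (qExpand Kbar (M * ℓ) (jqModC Kbar)), hq23 _ hxMl⟩ :
            s35pe_FL (M * p * ℓ)) = ⟨qExpand Kbar (M * p * ℓ) (jqModC Kbar), h⟩ := by
          apply Subtype.ext
          show qExpand Kbar p (qExpand Kbar (M * ℓ) (jqModC Kbar)) = _
          rw [qExpand_qExpand]
          exact qExpand_congr (by ring) _
        rw [e] at h1
        exact h1

/-- **`W̄ (N_{α_ℓ} (β_ℓ g)) = N_{α_ℓ} (β_ℓ (W̄ g))`.** -/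
theorem s44w_norm_comm (hpMℓ : ¬ p ∣ M * ℓ) (g : Fbar (M * p)) :
    ssm_al_Wbar M p hp hpM
        (s35pe_normAlong (heckeAlphaBar Kbar (M * p) ℓ) (heckeBetaBar Kbar (M * p) ℓ g)) =
      s35pe_normAlong (heckeAlphaBar Kbar (M * p) ℓ)
        (heckeBetaBar Kbar (M * p) ℓ (ssm_al_Wbar M p hp hpM g)) := by
  obtain ⟨W', hWα, hWβ, hgen⟩ := s44w_exists_W' M p ℓ hp hpM hpMℓ
  have hpos : 0 < finrankAlong Kbar (heckeAlphaBar Kbar (M * p) ℓ) := by
    letI := algebraAlong (heckeAlphaBar Kbar (M * p) ℓ)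
    haveI : Module.Finite (Fbar (M * p)) (Fbar (M * p * ℓ)) := hib_finiteAlong_alpha (M * p) ℓ
    exact Module.finrank_pos
  have h := s35pe_normAlong_baseChange (heckeAlphaBar Kbar (M * p) ℓ)
    (heckeAlphaBar Kbar (M * p) ℓ) (ssm_al_Wbar M p hp hpM : Fbar (M * p) →+* Fbar (M * p))
    (W' : Fbar (M * p * ℓ) →+* Fbar (M * p * ℓ)) (fun x => hWα x) hpos rfl
    (fun S h1 h2 => hgen S h1 h2) (heckeBetaBar Kbar (M * p) ℓ g)
  rw [← hWβ]
  exact h.symm

/-- **the divisor identity (D) for `γ = W̄`.** -/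
theorem s44w_div_comm (hpMℓ : ¬ p ∣ M * ℓ)
    (D : Divisor Kbar (Fbar (M * p))) (m : ℕ) (hm : m ≠ 0) (hD : (m • D).IsPrincipal) :
    Divisor.pushforwardAlong (ssm_al_Wbar M p hp hpM) (s44w_integral M p hp hpM)
        (Divisor.correspondence (heckeBetaBar Kbar (M * p) ℓ) (heckeAlphaBar Kbar (M * p) ℓ)
          (hib_betaIntegral (M * p) ℓ) (hib_alphaIntegral (M * p) ℓ) D) =
      Divisor.correspondence (heckeBetaBar Kbar (M * p) ℓ) (heckeAlphaBar Kbar (M * p) ℓ)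
        (hib_betaIntegral (M * p) ℓ) (hib_alphaIntegral (M * p) ℓ)
        (Divisor.pushforwardAlong (ssm_al_Wbar M p hp hpM) (s44w_integral M p hp hpM) D) :=
  s35pe_div_comm (ssm_al_Wbar M p hp hpM) (heckeAlphaBar Kbar (M * p) ℓ)
    (heckeBetaBar Kbar (M * p) ℓ) (heckeAlphaBar Kbar (M * p) ℓ) (heckeBetaBar Kbar (M * p) ℓ)
    (s44w_integral M p hp hpM) (hib_alphaIntegral (M * p) ℓ) (hib_betaIntegral (M * p) ℓ)
    (hib_alphaIntegral (M * p) ℓ) (hib_betaIntegral (M * p) ℓ)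
    (s44w_finiteAlong M p hp hpM) (hib_finiteAlong_alpha (M * p) ℓ)
    (hib_finiteAlong_alpha (M * p) ℓ)
    (s44w_normFormulaAlong M p hp hpM) (hib_normFormulaAlong_alpha (M * p) ℓ)
    (hib_normFormulaAlong_alpha (M * p) ℓ)
    (fun g => by
      rw [s44w_normAlong_Wbar, s44w_normAlong_Wbar]
      exact s44w_norm_comm M p ℓ hp hpM hpMℓ g) D m hm hD

/-- **`W_p` commutes with `T_ℓ` on torsion classes.** -/
theorem s44w_WJ_hecke (hℓ : ℓ.Prime) (hℓN : ¬ ℓ ∣ M * p)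
    (x : JZero (M * p)) (m : ℕ) (hm : m ≠ 0) (hx : m • x = 0) :
    s44w_WJ M p hp hpM (heckeOperatorBar (M * p) ⟨ℓ, hℓ⟩ x)
      = heckeOperatorBar (M * p) ⟨ℓ, hℓ⟩ (s44w_WJ M p hp hpM x) := by
  have hpMℓ : ¬ p ∣ M * ℓ := s35pe_not_dvd_mul M p ℓ hp hpM hℓ hℓN
  obtain ⟨D, rfl⟩ := Pic0.mk_surjective x
  have hD := s35p_isPrincipal_of_nsmul_mk hx
  show s44w_WJ M p hp hpM (heckeOperatorAlong Kbar (M * p) ℓ (Pic0.mk D)) =
    heckeOperatorAlong Kbar (M * p) ℓ (s44w_WJ M p hp hpM (Pic0.mk D))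
  rw [hib_heckeOperatorAlong_eq]
  show s35p_pushPic0 _ _ _ _ (Pic0.mk (Pic0.degZeroCorrespondence _ _
      (hib_betaIntegral (M * p) ℓ) (hib_alphaIntegral (M * p) ℓ)
      (hib_fundamentalIdentityAlong_beta (M * p) ℓ) D))
    = Pic0.mk (Pic0.degZeroCorrespondence _ _ (hib_betaIntegral (M * p) ℓ)
      (hib_alphaIntegral (M * p) ℓ) (hib_fundamentalIdentityAlong_beta (M * p) ℓ)
      (s35p_pushDegZero _ (s44w_integral M p hp hpM) D))
  rw [s35p_pushPic0_mk]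
  congr 1
  apply Subtype.ext
  exact s44w_div_comm M p ℓ hp hpM hpMℓ (D : Divisor Kbar (Fbar (M * p))) m hm hD

end Hecke

end Fermat.Agent.S44
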