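/-
S44, cell [W-J] (helper25; prefix `s44w_`): the Atkin–Lehner involution `W_p` on `J₀(M p)` satisfies
`s44bg_IsALp (s44_frame2 P M hpM)`; hence [BIG] for the frame `s44_frame2 P M hpM` follows from the
sub-cells `s44bg_Cells` alone (`s44w_big`).
-/
import Fermat.Agent.S44.WJ.Hecke
import Fermat.Agent.S44.Big.AL2

set_option autoImplicit false
set_option linter.unusedSectionVars false

noncomputable section

namespace Fermat.Agent.S44

open ModularCurve AlgebraicCurve Fermat.Agent.S24 Fermat.Agent.JT3 Fermat.Agent.S35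
  Fermat.Agent.SS WeierstrassCurve WeierstrassCurve.Affine WeierstrassCurve.Affine.Point

section

variable (P : FreyPackage) (M : ℕ) [NeZero M] [NeZero (M * P.p)] (hpM : ¬ P.p ∣ M)

/-- depth at `w_∞` of `W_p z` from depth at `w_0` of `z`. -/
theorem s44w_depth_id_of_W {c : s44_Qb} {z : JZero (M * P.p)}
    (h : s44f_Depth2 (M * P.p) (s44f_A P.p P.pp) P.p c (ssm_al_Wbar M P.p P.pp hpM) z) :
    s44f_Depth2 (M * P.p) (s44f_A P.p P.pp) P.p c (AlgHom.id _ _)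
      (s44w_WJ M P.p P.pp hpM z) := by
  obtain ⟨f, hf, g, b, hg, hb, he⟩ := h
  exact ⟨ssm_al_Wbar M P.p P.pp hpM f, s44w_rep_WJ M P.p P.pp hpM hf, g, b, hg, hb, he⟩

/-- depth at `w_0` of `W_p z` from depth at `w_∞` of `z`. -/
theorem s44w_depth_W_of_id {c : s44_Qb} {z : JZero (M * P.p)}
    (h : s44f_Depth2 (M * P.p) (s44f_A P.p P.pp) P.p c (AlgHom.id _ _) z) :
    s44f_Depth2 (M * P.p) (s44f_A P.p P.pp) P.p c (ssm_al_Wbar M P.p P.pp hpM)
      (s44w_WJ M P.p P.pp hpM z) := by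
  obtain ⟨f, hf, g, b, hg, hb, he⟩ := h
  refine ⟨ssm_al_Wbar M P.p P.pp hpM f, s44w_rep_WJ M P.p P.pp hpM hf, g, b, hg, hb, ?_⟩
  rw [s44dqn_Wbar_Wbar]
  exact he

/-- **[W-J] for the frame `s44_frame2 P M hpM`.** -/
theorem s44w_isALp : s44bg_IsALp (s44_frame2 P M hpM) (s44w_WJ M P.p P.pp hpM) where
  invol := fun z hz => s44w_WJ_WJ M P.p P.pp hpM z hz
  smul := fun σ z => s44w_WJ_smul M P.p P.pp hpM σ z
  hecke := fun ℓ hℓN z hz => by
    haveI : NeZero (ℓ : ℕ) := ⟨ℓ.2.ne_zero⟩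
    exact s44w_WJ_hecke M P.p ℓ P.pp hpM ℓ.2 hℓN z P.p P.hp0 hz
  as_W := fun z hz => s44w_as_WJ M P.p P.pp hpM z hz
  bs_W := fun z hz => s44w_bs_WJ M P.p P.pp hpM z hz
  d1inf_W := by
    rintro z hz ⟨c, hc0, hc, hd⟩
    refine ⟨c, hc0, hc, ?_⟩
    have h := s44w_depth_W_of_id P M hpM hd
    rw [s44w_WJ_WJ M P.p P.pp hpM z hz] at h
    exact h
  split_W := fun z _ hs c hc =>
    ⟨s44w_depth_id_of_W P M hpM (hs c hc).2, s44w_depth_W_of_id P M hpM (hs c hc).1⟩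

variable {Sg : Type} {S : Finset ℕ} {k : Sg → ZMod P.p}
  {ν : JZero (M * P.p) → Sg → ZMod P.p}
  {B : Nat.Primes → (Sg → ZMod P.p) →+ (Sg → ZMod P.p)}

/-- **[BIG] for the frame `s44_frame2 P M hpM` from the sub-cells `s44bg_Cells`.** -/
theorem s44w_big
    (hirr : GaloisRepIsIrreducible (K := AlgebraicClosure ℚ) ℚ P.freyCurve P.p)
    (hC : s44bg_Cells (s44_frame2 P M hpM) S k ν B) : s44_Big_stmt (s44_frame2 P M hpM) :=
  s44bg_big_ALp hirr hC _ (s44w_isALp P M hpM)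

end

end Fermat.Agent.S44
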